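import Mathlib
import Fermat.Agent.LT.T2.H429.OpsSpec
import Fermat.Agent.LT.T8.H864.Local

/-!
# Row LT, tower T2, sub-leaf T2.07.20 `SubCommCircleCircle429` (helper368)

OFF-MAIN.  On `LT/T2/H429/OpsSpec.lean` (helper429, sha256 657e0d9a), `LT/T2/Spec.lean`
(sha256 43969e81), `LT/T1/Spec.lean` (sha256 eba1c6dc), `LT/H556/A0.lean` (sha256 66d3374a) and the
local elements of `LT/T8/H864/Local.lean` (helper864, sha256 118083c7), byte-identical copies.

`subCommCircleCircle368 : SubCommCircleCircle429 K`, UNCONDITIONAL (no standing hypothesis is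
used): two circle means at real places commute on the cusp functions.

* different places: the elements commute, Fubini on the square;
* same place: Gelfand's trick for `(GL₂(ℝ), SO(2))`, in the DIRECT form (no pairing, no
  definiteness, no Cartan decomposition as input): for every real matrix `x` there is a rotation
  `κ` with `xᵀ = κ x κ` (`exists_rot_transpose368`), so the left rotation average of a right
  `SO(2)`-invariant function is invariant under the transposition; the circle `rotY` is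
  `2π`-periodic modulo the central element `-1 ∈ SO(2)`.
-/

set_option autoImplicit false

open MeasureTheory Set
open IsDedekindDomain NumberField
open scoped MatrixGroups

noncomputable section

namespace Fermat.Agent.LT.T2.H368

/-- The rotation of angle `θ / 2`, as a real matrix. -/
def rotR368 (θ : ℝ) : Matrix (Fin 2) (Fin 2) ℝ :=
  !![Real.cos (θ / 2), -Real.sin (θ / 2); Real.sin (θ / 2), Real.cos (θ / 2)]

/-- `diag(e^{t/2}, e^{-t/2})`, as a real matrix. -/
def torR368 (t : ℝ) : Matrix (Fin 2) (Fin 2) ℝ :=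
  !![Real.exp (t / 2), 0; 0, Real.exp (-(t / 2))]

theorem rotR368_add (a b : ℝ) : rotR368 (a + b) = rotR368 a * rotR368 b := by
  have h : (a + b) / 2 = a / 2 + b / 2 := by ring
  ext i j
  fin_cases i <;> fin_cases j <;>
    simp [rotR368, h, Real.cos_add, Real.sin_add, Matrix.mul_apply, Fin.sum_univ_two] <;> ring

theorem rotR368_zero : rotR368 0 = 1 := by
  ext i j
  fin_cases i <;> fin_cases j <;> simp [rotR368]

theorem rotR368_two_pi : rotR368 (2 * Real.pi) = -1 := by
  have h : 2 * Real.pi / 2 = Real.pi := by ring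
  ext i j
  fin_cases i <;> fin_cases j <;> simp [rotR368, h]

theorem rotR368_transpose (θ : ℝ) : (rotR368 θ).transpose = rotR368 (-θ) := by
  have h : -θ / 2 = -(θ / 2) := by ring
  ext i j
  fin_cases i <;> fin_cases j <;> simp [rotR368, h, Matrix.transpose_apply]

theorem rotR368_det (θ : ℝ) : (rotR368 θ).det = 1 := by
  simp only [rotR368, Matrix.det_fin_two_of]
  have := Real.cos_sq_add_sin_sq (θ / 2)
  nlinarith [this]

theorem torR368_det (t : ℝ) : (torR368 t).det = 1 := by
  simp only [torR368, Matrix.det_fin_two_of]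
  rw [mul_zero, sub_zero, ← Real.exp_add]
  simp

theorem torR368_transpose (t : ℝ) : (torR368 t).transpose = torR368 t := by
  ext i j
  fin_cases i <;> fin_cases j <;> simp [torR368, Matrix.transpose_apply]

/-- The rotation as an element of `GL₂(ℝ)`. -/
def rotG368 (θ : ℝ) : GL (Fin 2) ℝ :=
  Matrix.GeneralLinearGroup.mkOfDetNeZero (rotR368 θ) (by rw [rotR368_det]; exact one_ne_zero)

/-- The torus element as an element of `GL₂(ℝ)`. -/
def torG368 (t : ℝ) : GL (Fin 2) ℝ :=
  Matrix.GeneralLinearGroup.mkOfDetNeZero (torR368 t) (by rw [torR368_det]; exact one_ne_zero)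

@[simp] theorem coe_rotG368 (θ : ℝ) :
    ((rotG368 θ : GL (Fin 2) ℝ) : Matrix (Fin 2) (Fin 2) ℝ) = rotR368 θ := rfl

@[simp] theorem coe_torG368 (t : ℝ) :
    ((torG368 t : GL (Fin 2) ℝ) : Matrix (Fin 2) (Fin 2) ℝ) = torR368 t := rfl

theorem rotG368_add (a b : ℝ) : rotG368 (a + b) = rotG368 a * rotG368 b :=
  Units.ext (by simp [rotR368_add])

theorem rotG368_zero : rotG368 0 = 1 :=
  Units.ext (by simp [rotR368_zero])

theorem rotG368_inv (a : ℝ) : (rotG368 a)⁻¹ = rotG368 (-a) := by
  rw [inv_eq_iff_eq_inv, eq_inv_iff_mul_eq_one, ← rotG368_add]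
  simp [rotG368_zero]

/-- `rotG368 (2π) = -1` is central. -/
theorem rotG368_two_pi_mul (x : GL (Fin 2) ℝ) :
    rotG368 (2 * Real.pi) * x = x * rotG368 (2 * Real.pi) :=
  Units.ext (by simp [rotR368_two_pi])

theorem continuous_rotR368 : Continuous rotR368 := by
  refine continuous_matrix fun i j => ?_
  fin_cases i <;> fin_cases j <;> simp [rotR368] <;> fun_prop

theorem continuous_rotG368 : Continuous rotG368 := by
  rw [Units.continuous_iff]
  refine ⟨continuous_rotR368, ?_⟩
  have h : (fun a : ℝ => (((rotG368 a)⁻¹ : GL (Fin 2) ℝ) : Matrix (Fin 2) (Fin 2) ℝ))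
      = fun a => rotR368 (-a) := by
    funext a
    rw [rotG368_inv]
    rfl
  show Continuous fun a : ℝ => (((rotG368 a)⁻¹ : GL (Fin 2) ℝ) : Matrix (Fin 2) (Fin 2) ℝ)
  rw [h]
  exact continuous_rotR368.comp continuous_neg

/-- For every real `2 × 2` matrix `x` there is a rotation `κ` with `xᵀ = κ x κ`
(equivalently `κ x` is symmetric): the Cartan decomposition in the form needed for Gelfand's
trick. -/
theorem exists_rot_transpose368 (x : Matrix (Fin 2) (Fin 2) ℝ) :
    ∃ c : ℝ, x.transpose = rotR368 c * x * rotR368 c := by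
  -- `p (b - c) = q (a + d)` and `p² + q² = 1`
  obtain ⟨p, q, h1, h2⟩ : ∃ p q : ℝ, p * (x 0 1 - x 1 0) = q * (x 0 0 + x 1 1) ∧
      p ^ 2 + q ^ 2 = 1 := by
    by_cases h : (x 0 0 + x 1 1) ^ 2 + (x 0 1 - x 1 0) ^ 2 = 0
    · refine ⟨1, 0, ?_, by norm_num⟩
      have h0 : x 0 1 - x 1 0 = 0 := by nlinarith [sq_nonneg (x 0 0 + x 1 1), sq_nonneg (x 0 1 - x 1 0)]
      rw [h0]; ring
    · set r := Real.sqrt ((x 0 0 + x 1 1) ^ 2 + (x 0 1 - x 1 0) ^ 2) with hr
      have hpos : 0 < (x 0 0 + x 1 1) ^ 2 + (x 0 1 - x 1 0) ^ 2 :=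
        lt_of_le_of_ne (by positivity) (Ne.symm h)
      have hr0 : 0 < r := Real.sqrt_pos.2 hpos
      have hr2 : r ^ 2 = (x 0 0 + x 1 1) ^ 2 + (x 0 1 - x 1 0) ^ 2 := Real.sq_sqrt hpos.le
      refine ⟨(x 0 0 + x 1 1) / r, (x 0 1 - x 1 0) / r, by ring, ?_⟩
      rw [div_pow, div_pow, ← add_div, ← hr2, div_self (pow_ne_zero 2 hr0.ne')]
  -- the angle
  obtain ⟨c, hc1, hc2⟩ : ∃ c : ℝ, Real.cos (c / 2) = p ∧ Real.sin (c / 2) = q := by
    set z : ℂ := ⟨p, q⟩ with hz
    have hnorm : ‖z‖ = 1 := by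
      have : ‖z‖ ^ 2 = 1 := by
        rw [Complex.sq_norm, Complex.normSq_apply]
        simp only [hz]
        nlinarith [h2]
      have h0 : 0 ≤ ‖z‖ := norm_nonneg z
      nlinarith [this, h0]
    have hz0 : z ≠ 0 := by
      intro h
      rw [h, norm_zero] at hnorm
      exact zero_ne_one hnorm
    refine ⟨2 * Complex.arg z, ?_, ?_⟩
    · rw [mul_div_cancel_left₀ _ (two_ne_zero' ℝ), Complex.cos_arg hz0, hnorm, div_one]
    · rw [mul_div_cancel_left₀ _ (two_ne_zero' ℝ), Complex.sin_arg, hnorm, div_one]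
  refine ⟨c, ?_⟩
  ext i j
  fin_cases i <;> fin_cases j
  · simp only [rotR368, hc1, hc2, Matrix.transpose_apply, Matrix.mul_apply, Fin.sum_univ_two,
      Fin.zero_eta, Fin.isValue, Matrix.of_apply, Matrix.cons_val', Matrix.cons_val_zero,
      Matrix.cons_val_one, Matrix.cons_val_fin_one]
    linear_combination (-q) * h1 - (x 0 0) * h2
  · simp only [rotR368, hc1, hc2, Matrix.transpose_apply, Matrix.mul_apply, Fin.sum_univ_two,
      Fin.zero_eta, Fin.mk_one, Fin.isValue, Matrix.of_apply, Matrix.cons_val', Matrix.cons_val_zero,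
      Matrix.cons_val_one, Matrix.cons_val_fin_one]
    linear_combination (-p) * h1 - (x 1 0) * h2
  · simp only [rotR368, hc1, hc2, Matrix.transpose_apply, Matrix.mul_apply, Fin.sum_univ_two,
      Fin.zero_eta, Fin.mk_one, Fin.isValue, Matrix.of_apply, Matrix.cons_val', Matrix.cons_val_zero,
      Matrix.cons_val_one, Matrix.cons_val_fin_one]
    linear_combination p * h1 - (x 0 1) * h2
  · simp only [rotR368, hc1, hc2, Matrix.transpose_apply, Matrix.mul_apply, Fin.sum_univ_two,
      Fin.mk_one, Fin.isValue, Matrix.of_apply, Matrix.cons_val', Matrix.cons_val_zero,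
      Matrix.cons_val_one, Matrix.cons_val_fin_one]
    linear_combination (-q) * h1 - (x 1 1) * h2

/-- Fubini for a continuous function on a rectangle, interval-integral form. -/
theorem intervalIntegral_swap368 {E : Type*} [NormedAddCommGroup E] [NormedSpace ℝ E]
    (f : ℝ → ℝ → E) (hf : Continuous (Function.uncurry f)) {a b c d : ℝ}
    (hab : a ≤ b) (hcd : c ≤ d) :
    (∫ x in a..b, ∫ y in c..d, f x y) = ∫ y in c..d, ∫ x in a..b, f x y := by
  simp only [intervalIntegral.integral_of_le hab, intervalIntegral.integral_of_le hcd]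
  apply MeasureTheory.integral_integral_swap
  rw [Measure.prod_restrict]
  have hK : IsCompact (Icc a b ×ˢ Icc c d) := isCompact_Icc.prod isCompact_Icc
  have h1 : IntegrableOn (Function.uncurry f) (Icc a b ×ˢ Icc c d) (volume.prod volume) :=
    hf.continuousOn.integrableOn_compact hK
  exact h1.mono_set (prod_mono Ioc_subset_Icc_self Ioc_subset_Icc_self)


/-! ## 2. Gelfand's trick on `GL₂(ℝ)` -/

section Real

variable (ψ : GL (Fin 2) ℝ → ℂ)

/-- The left average of `ψ` over the rotations. -/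
def avg368 (x : GL (Fin 2) ℝ) : ℂ := ∫ a in (0 : ℝ)..(2 * Real.pi), ψ (rotG368 a * x)

variable {ψ}

theorem periodic_rot368 (hinv : ∀ (m : GL (Fin 2) ℝ) (c : ℝ), ψ (m * rotG368 c) = ψ m)
    (x y : GL (Fin 2) ℝ) :
    Function.Periodic (fun a : ℝ => ψ (x * (rotG368 a * y))) (2 * Real.pi) := by
  intro a
  show ψ (x * (rotG368 (a + 2 * Real.pi) * y)) = ψ (x * (rotG368 a * y))
  have h : x * (rotG368 (a + 2 * Real.pi) * y) = x * (rotG368 a * y) * rotG368 (2 * Real.pi) := by
    rw [rotG368_add, mul_assoc (rotG368 a), rotG368_two_pi_mul y]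
    simp only [mul_assoc]
  rw [h, hinv]

theorem avg368_rot_mul (hinv : ∀ (m : GL (Fin 2) ℝ) (c : ℝ), ψ (m * rotG368 c) = ψ m)
    (c : ℝ) (x : GL (Fin 2) ℝ) : avg368 ψ (rotG368 c * x) = avg368 ψ x := by
  unfold avg368
  have h1 : ∀ a : ℝ, ψ (rotG368 a * (rotG368 c * x)) = ψ (1 * (rotG368 (a + c) * x)) := by
    intro a
    rw [rotG368_add, one_mul, mul_assoc]
  simp only [h1]
  rw [intervalIntegral.integral_comp_add_right (fun a => ψ (1 * (rotG368 a * x))) c]
  have hp := periodic_rot368 hinv 1 x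
  have := hp.intervalIntegral_add_eq (0 + c) 0
  simp only [zero_add] at this ⊢
  rw [add_comm (2 * Real.pi) c, this]
  simp only [one_mul]

theorem avg368_mul_rot (hinv : ∀ (m : GL (Fin 2) ℝ) (c : ℝ), ψ (m * rotG368 c) = ψ m)
    (c : ℝ) (x : GL (Fin 2) ℝ) : avg368 ψ (x * rotG368 c) = avg368 ψ x := by
  unfold avg368
  congr 1
  funext a
  rw [← mul_assoc, hinv]

/-- The average is invariant under the transposition. -/
theorem avg368_transpose (hinv : ∀ (m : GL (Fin 2) ℝ) (c : ℝ), ψ (m * rotG368 c) = ψ m)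
    (x y : GL (Fin 2) ℝ)
    (hxy : (y : Matrix (Fin 2) (Fin 2) ℝ) = (x : Matrix (Fin 2) (Fin 2) ℝ).transpose) :
    avg368 ψ y = avg368 ψ x := by
  obtain ⟨c, hc⟩ := exists_rot_transpose368 (x : Matrix (Fin 2) (Fin 2) ℝ)
  have hy : y = rotG368 c * (x * rotG368 c) := by
    apply Units.ext
    rw [hxy, hc]
    simp [mul_assoc]
  rw [hy, avg368_rot_mul hinv, avg368_mul_rot hinv]

theorem periodic_avg368 (hinv : ∀ (m : GL (Fin 2) ℝ) (c : ℝ), ψ (m * rotG368 c) = ψ m)
    (A A' : GL (Fin 2) ℝ) :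
    Function.Periodic (fun b : ℝ => avg368 ψ (A * (rotG368 b * A'))) (2 * Real.pi) := by
  intro b
  show avg368 ψ (A * (rotG368 (b + 2 * Real.pi) * A')) = avg368 ψ (A * (rotG368 b * A'))
  have h : A * (rotG368 (b + 2 * Real.pi) * A') = A * (rotG368 b * A') * rotG368 (2 * Real.pi) := by
    rw [rotG368_add, mul_assoc (rotG368 b), rotG368_two_pi_mul A']
    simp only [mul_assoc]
  rw [h, avg368_mul_rot hinv]

/-- **Gelfand's trick for `(GL₂(ℝ), SO(2))`**: the two iterated circle means of a continuous right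
`SO(2)`-invariant function agree. -/
theorem circle_comm_real368 (hc : Continuous ψ)
    (hinv : ∀ (m : GL (Fin 2) ℝ) (c : ℝ), ψ (m * rotG368 c) = ψ m)
    (A A' : GL (Fin 2) ℝ)
    (hA : (A : Matrix (Fin 2) (Fin 2) ℝ).transpose = (A : Matrix (Fin 2) (Fin 2) ℝ))
    (hA' : (A' : Matrix (Fin 2) (Fin 2) ℝ).transpose = (A' : Matrix (Fin 2) (Fin 2) ℝ)) :
    (∫ θ in (0 : ℝ)..(2 * Real.pi), ∫ θ' in (0 : ℝ)..(2 * Real.pi),
        ψ (rotG368 θ * A * (rotG368 θ' * A')))
      = ∫ θ' in (0 : ℝ)..(2 * Real.pi), ∫ θ in (0 : ℝ)..(2 * Real.pi),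
        ψ (rotG368 θ' * A' * (rotG368 θ * A)) := by
  have h2pi : (0 : ℝ) ≤ 2 * Real.pi := by positivity
  have hcont : ∀ B B' : GL (Fin 2) ℝ, Continuous (Function.uncurry
      (fun θ θ' : ℝ => ψ (rotG368 θ * B * (rotG368 θ' * B')))) := by
    intro B B'
    apply hc.comp
    have h1 : Continuous fun p : ℝ × ℝ => rotG368 p.1 := continuous_rotG368.comp continuous_fst
    have h2 : Continuous fun p : ℝ × ℝ => rotG368 p.2 := continuous_rotG368.comp continuous_snd
    exact (h1.mul continuous_const).mul (h2.mul continuous_const)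
  -- left side
  have hL : (∫ θ in (0 : ℝ)..(2 * Real.pi), ∫ θ' in (0 : ℝ)..(2 * Real.pi),
        ψ (rotG368 θ * A * (rotG368 θ' * A')))
      = ∫ θ' in (0 : ℝ)..(2 * Real.pi), avg368 ψ (A * (rotG368 θ' * A')) := by
    rw [intervalIntegral_swap368 _ (hcont A A') h2pi h2pi]
    simp only [avg368, mul_assoc]
  -- right side
  have hR : (∫ θ' in (0 : ℝ)..(2 * Real.pi), ∫ θ in (0 : ℝ)..(2 * Real.pi),
        ψ (rotG368 θ' * A' * (rotG368 θ * A)))
      = ∫ θ in (0 : ℝ)..(2 * Real.pi), avg368 ψ (A' * (rotG368 θ * A)) := by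
    rw [intervalIntegral_swap368 _ (hcont A' A) h2pi h2pi]
    simp only [avg368, mul_assoc]
  rw [hL, hR]
  -- transposition
  have hT : ∀ θ : ℝ, avg368 ψ (A' * (rotG368 θ * A)) = avg368 ψ (A * (rotG368 (-θ) * A')) := by
    intro θ
    refine (avg368_transpose hinv _ _ ?_).symm
    simp only [Matrix.GeneralLinearGroup.coe_mul, coe_rotG368, Matrix.transpose_mul, hA, hA',
      rotR368_transpose, mul_assoc]
  simp only [hT]
  rw [intervalIntegral.integral_comp_neg (fun b => avg368 ψ (A * (rotG368 b * A')))]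
  have hp := (periodic_avg368 hinv A A').intervalIntegral_add_eq (-(2 * Real.pi)) 0
  simp only [zero_add, neg_add_cancel, neg_zero] at hp ⊢
  exact hp.symm

end Real


/-! ## 3. The adelic statement -/

section Adelic

open Fermat.Agent.LT.H556.A0 Fermat.Agent.LT.T2 Fermat.Agent.LT.T2.H429 Fermat.Agent.LT.T8.H864

variable {K : Type} [Field K] [NumberField K]

/-- Two elements supported at the same infinite place with the same complex matrix are equal. -/
theorem eq_of_local368 {w : InfinitePlace K} {g g' : G K} (hg : IsLocalAtInf w g)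
    (hg' : IsLocalAtInf w g') (h : infComp w g = infComp w g') : g = g' := by
  refine G_ext (fun w' => ?_) (fun v => ?_)
  · by_cases hw : w' = w
    · subst hw
      apply Units.ext
      rw [coe_infCompHom, coe_infCompHom]
      rw [infComp_eq_map, infComp_eq_map] at h
      exact Matrix.map_injective (InfinitePlace.Completion.extensionEmbedding w').injective h
    · rw [(trivAtInf_iff_hom w' g).1 (hg.1 w' hw), (trivAtInf_iff_hom w' g').1 (hg'.1 w' hw)]
  · rw [(trivAtFin_iff_hom v g).1 (hg.2 v), (trivAtFin_iff_hom v g').1 (hg'.2 v)]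

theorem rotY_eq368 (θ : ℝ) : rotY θ = (rotR368 θ).map (fun r : ℝ => (r : ℂ)) := by
  ext i j
  fin_cases i <;> fin_cases j <;> simp [rotY, rotR368]

theorem torus_eq368 (t : ℝ) : torus t = (torR368 t).map (fun r : ℝ => (r : ℂ)) := by
  ext i j
  fin_cases i <;> fin_cases j <;> simp [torus, torR368]

theorem map_ofReal_mul368 (M N : Matrix (Fin 2) (Fin 2) ℝ) :
    (M * N).map (fun r : ℝ => (r : ℂ))
      = M.map (fun r : ℝ => (r : ℂ)) * N.map (fun r : ℝ => (r : ℂ)) :=
  Matrix.map_mul (f := Complex.ofRealHom)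

/-- The circle of `IsCircleAt` is the image of the real circle. -/
theorem circle_eq368 {w : InfinitePlace K} (hw : w.IsReal) {t : ℝ} {Y : ℝ → G K}
    (hY : IsCircleAt w t Y) (θ : ℝ) : Y θ = locInfReal hw (rotG368 θ * torG368 t) := by
  refine eq_of_local368 (hY θ).1 (isLocalAtInf_locInfReal hw _) ?_
  rw [(hY θ).2, infComp_locInfReal, rotY_eq368, torus_eq368, ← map_ofReal_mul368]
  rfl

/-- The rotations lie in the compact group at `w`. -/
theorem isArchCompact_rot368 {w : InfinitePlace K} (hw : w.IsReal) (c : ℝ) :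
    IsArchCompact w (locInfReal hw (rotG368 c)) := by
  have hmap : infComp w (locInfReal hw (rotG368 c))
      = (rotR368 c).map (fun r : ℝ => (r : ℂ)) := by
    rw [infComp_locInfReal]; rfl
  refine ⟨isLocalAtInf_locInfReal hw _, ?_, fun _ => ?_⟩
  · rw [hmap]
    have h1 : ((rotR368 c).map (fun r : ℝ => (r : ℂ))).conjTranspose
        = ((rotR368 c).transpose).map (fun r : ℝ => (r : ℂ)) := by
      ext i j
      simp [Matrix.conjTranspose_apply, Matrix.transpose_apply]
    rw [h1, ← map_ofReal_mul368, rotR368_transpose, ← rotR368_add, add_neg_cancel, rotR368_zero]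
    ext i j
    fin_cases i <;> fin_cases j <;> simp
  · rw [hmap]
    have h2 : ((rotR368 c).map (fun r : ℝ => (r : ℂ))).det = (((rotR368 c).det : ℝ) : ℂ) := by
      simp only [Matrix.det_fin_two, Matrix.map_apply]
      push_cast
      ring
    rw [h2, rotR368_det]
    simp

variable {𝔫 : Ideal (𝓞 K)} {φ : G K → ℂ}

/-- The pull-back of a cusp function to `GL₂(ℝ)` at the real place `w`. -/
def pull368 {w : InfinitePlace K} (hw : w.IsReal) (φ : G K → ℂ) (g : G K) :
    GL (Fin 2) ℝ → ℂ := fun m => φ (g * locInfReal hw m)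

theorem continuous_pull368 {w : InfinitePlace K} (hw : w.IsReal) (hφ : Continuous φ) (g : G K) :
    Continuous (pull368 hw φ g) :=
  hφ.comp (continuous_const.mul (continuous_locInfReal hw))

theorem pull368_inv {w : InfinitePlace K} (hw : w.IsReal) (hφ : IsCuspFn 𝔫 φ) (g : G K)
    (m : GL (Fin 2) ℝ) (c : ℝ) : pull368 hw φ g (m * rotG368 c) = pull368 hw φ g m := by
  unfold pull368
  rw [map_mul, ← mul_assoc]
  exact hφ.arch_compact w _ (isArchCompact_rot368 hw c) _

/-- Same place. -/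
theorem circle_comm_same368 {w : InfinitePlace K} (hw : w.IsReal) (hφ : IsCuspFn 𝔫 φ)
    {t t' : ℝ} {Y Y' : ℝ → G K} (hY : IsCircleAt w t Y) (hY' : IsCircleAt w t' Y') (g : G K) :
    circleMean Y (circleMean Y' φ) g = circleMean Y' (circleMean Y φ) g := by
  have h1 : ∀ θ θ' : ℝ, φ (g * Y θ * Y' θ')
      = pull368 hw φ g (rotG368 θ * torG368 t * (rotG368 θ' * torG368 t')) := by
    intro θ θ'
    unfold pull368
    rw [circle_eq368 hw hY θ, circle_eq368 hw hY' θ', mul_assoc, ← map_mul]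
  have h2 : ∀ θ θ' : ℝ, φ (g * Y' θ' * Y θ)
      = pull368 hw φ g (rotG368 θ' * torG368 t' * (rotG368 θ * torG368 t)) := by
    intro θ θ'
    unfold pull368
    rw [circle_eq368 hw hY θ, circle_eq368 hw hY' θ', mul_assoc, ← map_mul]
  show (∫ θ in (0 : ℝ)..(2 * Real.pi), ∫ θ' in (0 : ℝ)..(2 * Real.pi), φ (g * Y θ * Y' θ'))
    = ∫ θ' in (0 : ℝ)..(2 * Real.pi), ∫ θ in (0 : ℝ)..(2 * Real.pi), φ (g * Y' θ' * Y θ)
  simp only [h1, h2]
  exact circle_comm_real368 (continuous_pull368 hw hφ.cont g) (pull368_inv hw hφ g)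
    (torG368 t) (torG368 t') (torR368_transpose t) (torR368_transpose t')

/-- Elements supported at two different infinite places commute. -/
theorem commute_of_local368 {w w' : InfinitePlace K} (h : w' ≠ w) {y y' : G K}
    (hy : IsLocalAtInf w y) (hy' : IsLocalAtInf w' y') : y * y' = y' * y := by
  refine commute_of_triv (fun w'' => ?_) (fun v => Or.inl ((trivAtFin_iff_hom v y).1 (hy.2 v)))
  by_cases h' : w'' = w
  · subst h'
    exact Or.inr ((trivAtInf_iff_hom w'' y').1 (hy'.1 w'' (Ne.symm h)))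
  · exact Or.inl ((trivAtInf_iff_hom w'' y).1 (hy.1 w'' h'))

/-- Different places. -/
theorem circle_comm_diff368 {w w' : InfinitePlace K} (hw : w.IsReal) (hw' : w'.IsReal)
    (h : w' ≠ w) (hφ : IsCuspFn 𝔫 φ)
    {t t' : ℝ} {Y Y' : ℝ → G K} (hY : IsCircleAt w t Y) (hY' : IsCircleAt w' t' Y') (g : G K) :
    circleMean Y (circleMean Y' φ) g = circleMean Y' (circleMean Y φ) g := by
  have h2pi : (0 : ℝ) ≤ 2 * Real.pi := by positivity
  have hcomm : ∀ θ θ' : ℝ, g * Y' θ' * Y θ = g * Y θ * Y' θ' := by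
    intro θ θ'
    rw [mul_assoc, mul_assoc, commute_of_local368 h (hY θ).1 (hY' θ').1]
  have hYc : Continuous Y := by
    have : Y = fun θ => locInfReal hw (rotG368 θ * torG368 t) := funext (circle_eq368 hw hY)
    rw [this]
    exact (continuous_locInfReal hw).comp (continuous_rotG368.mul continuous_const)
  have hYc' : Continuous Y' := by
    have : Y' = fun θ => locInfReal hw' (rotG368 θ * torG368 t') := funext (circle_eq368 hw' hY')
    rw [this]
    exact (continuous_locInfReal hw').comp (continuous_rotG368.mul continuous_const)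
  have hcont : Continuous (Function.uncurry (fun θ θ' : ℝ => φ (g * Y θ * Y' θ'))) := by
    apply hφ.cont.comp
    exact (continuous_const.mul (hYc.comp continuous_fst)).mul (hYc'.comp continuous_snd)
  show (∫ θ in (0 : ℝ)..(2 * Real.pi), ∫ θ' in (0 : ℝ)..(2 * Real.pi), φ (g * Y θ * Y' θ'))
    = ∫ θ' in (0 : ℝ)..(2 * Real.pi), ∫ θ in (0 : ℝ)..(2 * Real.pi), φ (g * Y' θ' * Y θ)
  simp only [hcomm]
  exact intervalIntegral_swap368 _ hcont h2pi h2pi

/-- **T2.07.20**: two circle means commute on the cusp functions.  UNCONDITIONAL. -/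
theorem subCommCircleCircle368 (K : Type) [Field K] [NumberField K] :
    SubCommCircleCircle429 K := by
  intro 𝔫 _ w hw t _ Y hY w' hw' t' _ Y' hY' φ hφ
  funext g
  by_cases h : w' = w
  · subst h
    exact circle_comm_same368 hw hφ hY hY' g
  · exact circle_comm_diff368 hw hw' h hφ hY hY' g

end Adelic

end Fermat.Agent.LT.T2.H368

end
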